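/-
S29 / Program A, lemma (D), consumer forms (helper3).

* the dimension bound and the two-dimensional lemma of `QuadRep.lean` for a coefficient
  field that is finite OR algebraically closed;
* the "stable subspace" form: `W0 ≤ E` a nonzero finite-dimensional stable subspace on
  which every `g` satisfies a quadratic relation (no irreducibility hypothesis);
* output as matrices or as endomorphisms of `Fin 2 → κ` with `LinearMap.charpoly`.

Mathlib + `QuadRep.lean` only.
-/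
import Fermat.Agent.S29.H3.QuadRep

set_option autoImplicit false

namespace Fermat.Agent.S29.H3

open Polynomial

section Closed

variable {κ : Type*} [Field κ] {G : Type*} [Group G]
  {W : Type*} [AddCommGroup W] [Module κ W]
  {ρ : G →* Module.End κ W} {ε : G →* κˣ}

/-- Over an algebraically closed field, if the image algebra has no "norm zero"
elements then it consists of scalars, so `W` is a line. -/
theorem finrank_le_two_of_domain_algClosed [IsAlgClosed κ] [Module.Finite κ W] [Nontrivial W]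
    (hquad : QuadHyp ρ ε) (hirr : IrrHyp ρ)
    (hdom : ∀ s ∈ pairSpan ρ ε, s.1 * s.2 = 0 → s.1 = 0) : Module.finrank κ W ≤ 2 := by
  have hscal : ∀ s ∈ pairSpan ρ ε, ∃ t : κ, s.1 = t • (1 : Module.End κ W) := by
    intro s hs
    obtain ⟨τ, hτ⟩ := pairSpan_add hquad hs
    obtain ⟨q, hq⟩ := pairSpan_mul hquad hs
    have hdeg : (X ^ 2 - C τ * X + C q : κ[X]).degree ≠ 0 := by
      have h2 : (X ^ 2 - C τ * X + C q : κ[X]).natDegree = 2 := by compute_degree!
      have h3 := Polynomial.degree_ne_of_natDegree_ne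
        (p := (X ^ 2 - C τ * X + C q : κ[X])) (n := 0) (by rw [h2]; norm_num)
      simpa using h3
    obtain ⟨t, ht⟩ := IsAlgClosed.exists_root (X ^ 2 - C τ * X + C q : κ[X]) hdeg
    have ht' : t ^ 2 - τ * t + q = 0 := by simpa using ht
    refine ⟨t, ?_⟩
    have hmem : s - t • ((1 : Module.End κ W), (1 : Module.End κ W)) ∈ pairSpan ρ ε :=
      Submodule.sub_mem _ hs (Submodule.smul_mem _ _ one_mem_pairSpan)
    have h2 : s.2 = τ • 1 - s.1 := by rw [← hτ]; abel
    have e : (s.1 - t • (1 : Module.End κ W)) * (s.2 - t • (1 : Module.End κ W))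
        = (t ^ 2 - τ * t + q) • (1 : Module.End κ W) := by
      rw [sub_mul, mul_sub, mul_sub, hq]
      simp only [mul_smul_comm, smul_mul_assoc, mul_one, one_mul]
      rw [h2]
      module
    have h0 := hdom _ hmem (by
      rw [Prod.fst_sub, Prod.snd_sub, Prod.smul_fst, Prod.smul_snd, e, ht', zero_smul])
    rw [Prod.fst_sub, Prod.smul_fst] at h0
    exact sub_eq_zero.mp h0
  obtain ⟨v, hv⟩ := exists_ne (0 : W)
  apply finrank_le_two_of_span v 0
  intro w
  obtain ⟨s, hs, rfl⟩ := orbit_eq_top (ε := ε) hirr hv w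
  obtain ⟨t, ht⟩ := hscal s hs
  exact ⟨t, 0, by rw [ht]; simp⟩

/-- The dimension bound, for `κ` finite or algebraically closed. -/
theorem finrank_le_two' [Module.Finite κ W] [Nontrivial W]
    (hκ : Finite κ ∨ IsAlgClosed κ) (hquad : QuadHyp ρ ε) (hirr : IrrHyp ρ) :
    Module.finrank κ W ≤ 2 := by
  by_cases h : ∀ s ∈ pairSpan ρ ε, s.1 * s.2 = 0 → s.1 = 0
  · rcases hκ with hκ | hκ
    · exact finrank_le_two_of_domain hquad hirr h
    · exact finrank_le_two_of_domain_algClosed hquad hirr h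
  · push Not at h
    obtain ⟨s, hs, h0, hX⟩ := h
    exact finrank_le_two_of_zero_divisor hquad hirr hs hX h0

/-- Lemma (D) for `κ` finite or algebraically closed, irreducible form. -/
theorem repTwo_of_irr [Module.Finite κ W] [Nontrivial W]
    (hκ : Finite κ ∨ IsAlgClosed κ) (hquad : QuadHyp ρ ε) (hirr : IrrHyp ρ) :
    RepTwoConclusion ρ ε := by
  have hle : Module.finrank κ W ≤ 2 := finrank_le_two' hκ hquad hirr
  have hpos : 0 < Module.finrank κ W := Module.finrank_pos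
  have h12 : Module.finrank κ W = 1 ∨ Module.finrank κ W = 2 := by omega
  rcases h12 with h | h
  · exact repTwo_of_finrank_one h
  · exact repTwo_of_finrank_two hquad hirr h

end Closed

section Stable

variable {κ : Type*} [Field κ] {G : Type*} [Group G]
  {E : Type*} [AddCommGroup E] [Module κ E]

/-- A nonzero finite-dimensional stable subspace contains a minimal nonzero stable subspace. -/
theorem exists_minimal_stable (ρ : G →* Module.End κ E) (W0 : Submodule κ E)
    [Module.Finite κ W0] (hW0 : W0 ≠ ⊥) (hstab : ∀ g, ∀ w ∈ W0, ρ g w ∈ W0) :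
    ∃ W : Submodule κ E, W ≤ W0 ∧ W ≠ ⊥ ∧ (∀ g, ∀ w ∈ W, ρ g w ∈ W) ∧
      ∀ U : Submodule κ E, U ≤ W → (∀ g, ∀ u ∈ U, ρ g u ∈ U) → U = ⊥ ∨ U = W := by
  classical
  let P : ℕ → Prop := fun n => ∃ W : Submodule κ E, W ≤ W0 ∧ W ≠ ⊥ ∧
    (∀ g, ∀ w ∈ W, ρ g w ∈ W) ∧ Module.finrank κ W = n
  have hP : ∃ n, P n := ⟨_, W0, le_rfl, hW0, hstab, rfl⟩
  obtain ⟨W, hW, hWne, hWstab, hWn⟩ := Nat.find_spec hP
  refine ⟨W, hW, hWne, hWstab, fun U hU hUstab => ?_⟩
  by_cases hU0 : U = ⊥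
  · exact Or.inl hU0
  · right
    have : Module.Finite κ W := Submodule.finiteDimensional_of_le hW
    have hmin : Nat.find hP ≤ Module.finrank κ U :=
      Nat.find_min' hP ⟨U, hU.trans hW, hU0, hUstab, rfl⟩
    exact Submodule.eq_of_le_of_finrank_le hU (by rw [hWn]; exact hmin)

/-- Lemma (D), stable-subspace form, matrix output, `κ` finite or algebraically closed. -/
theorem exists_rep_two_of_stable' (hκ : Finite κ ∨ IsAlgClosed κ)
    (ρ : G →* Module.End κ E) (W0 : Submodule κ E) [Module.Finite κ W0] (hW0 : W0 ≠ ⊥)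
    (hstab : ∀ g, ∀ w ∈ W0, ρ g w ∈ W0) (ε : G →* κˣ)
    (hquad : ∀ g, ∃ a : κ, ∀ w ∈ W0, ρ g (ρ g w) - a • ρ g w + ((ε g : κˣ) : κ) • w = 0) :
    ∃ ρ' : G →* Matrix (Fin 2) (Fin 2) κ,
      (∀ g (a : κ), (∀ w ∈ W0, ρ g (ρ g w) - a • ρ g w + ((ε g : κˣ) : κ) • w = 0) →
          (ρ' g).charpoly = X ^ 2 - C a * X + C ((ε g : κˣ) : κ)) ∧
      (∀ g, (∀ w ∈ W0, ρ g w = w) → ε g = 1 → ρ' g = 1) := by
  obtain ⟨W, hW, hWne, hWstab, hWmin⟩ := exists_minimal_stable ρ W0 hW0 hstab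
  have : Module.Finite κ W := Submodule.finiteDimensional_of_le hW
  have : Nontrivial W := (Submodule.nontrivial_iff_ne_bot).mpr hWne
  let ρW : G →* Module.End κ W :=
    { toFun := fun g => (ρ g).restrict (hWstab g)
      map_one' := by
        ext w
        simp
      map_mul' := fun g h => by
        ext w
        simp }
  have hρW : ∀ g (w : W), ((ρW g w : W) : E) = ρ g (w : E) := fun g w => rfl
  have hrel : ∀ g (a : κ), (∀ w ∈ W0, ρ g (ρ g w) - a • ρ g w + ((ε g : κˣ) : κ) • w = 0) →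
      ρW g * ρW g - a • ρW g + ((ε g : κˣ) : κ) • (1 : Module.End κ W) = 0 := by
    intro g a h
    ext w
    have h1 := h (w : E) (hW w.2)
    simpa [hρW] using h1
  have hquad' : QuadHyp ρW ε := fun g => by
    obtain ⟨a, ha⟩ := hquad g
    exact ⟨a, hrel g a ha⟩
  have hirr' : IrrHyp ρW := by
    intro U' hU'
    have h1 := hWmin (U'.map W.subtype) (by
      rintro _ ⟨u, _, rfl⟩
      exact u.2) (by
      rintro g _ ⟨u, hu, rfl⟩
      exact ⟨ρW g u, hU' g u hu, rfl⟩)
    rcases h1 with h1 | h1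
    · left
      apply Submodule.map_injective_of_injective W.injective_subtype
      rw [h1, Submodule.map_bot]
    · right
      apply Submodule.map_injective_of_injective W.injective_subtype
      rw [h1, Submodule.map_subtype_top]
  obtain ⟨ρ', h1, h2⟩ := repTwo_of_irr hκ hquad' hirr'
  refine ⟨ρ', fun g a ha => h1 g a (hrel g a ha), fun g hg hε => h2 g ?_ hε⟩
  ext w
  exact hg (w : E) (hW w.2)

/-- Lemma (D), stable-subspace form, output in `Module.End κ (Fin 2 → κ)`,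
`κ` finite or algebraically closed. -/
theorem exists_rep_two_of_stable_end (hκ : Finite κ ∨ IsAlgClosed κ)
    (ρ : G →* Module.End κ E) (W0 : Submodule κ E) [Module.Finite κ W0] (hW0 : W0 ≠ ⊥)
    (hstab : ∀ g, ∀ w ∈ W0, ρ g w ∈ W0) (ε : G →* κˣ)
    (hquad : ∀ g, ∃ a : κ, ∀ w ∈ W0, ρ g (ρ g w) - a • ρ g w + ((ε g : κˣ) : κ) • w = 0) :
    ∃ rV : G →* Module.End κ (Fin 2 → κ),
      (∀ g (a : κ), (∀ w ∈ W0, ρ g (ρ g w) - a • ρ g w + ((ε g : κˣ) : κ) • w = 0) →
          LinearMap.charpoly (rV g) = X ^ 2 - C a * X + C ((ε g : κˣ) : κ)) ∧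
      (∀ g, (∀ w ∈ W0, ρ g w = w) → ε g = 1 → rV g = 1) := by
  obtain ⟨ρ', h1, h2⟩ := exists_rep_two_of_stable' hκ ρ W0 hW0 hstab ε hquad
  let e : Matrix (Fin 2) (Fin 2) κ ≃ₐ[κ] Module.End κ (Fin 2 → κ) := Matrix.toLinAlgEquiv'
  refine ⟨(e : Matrix (Fin 2) (Fin 2) κ →* Module.End κ (Fin 2 → κ)).comp ρ',
    fun g a ha => ?_, fun g hg hε => ?_⟩
  · have h3 : ((e : Matrix (Fin 2) (Fin 2) κ →* Module.End κ (Fin 2 → κ)).comp ρ') g
        = Matrix.toLin' (ρ' g) := rfl
    rw [h3, Matrix.charpoly_toLin', h1 g a ha]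
  · have h3 : ((e : Matrix (Fin 2) (Fin 2) κ →* Module.End κ (Fin 2 → κ)).comp ρ') g
        = e (ρ' g) := rfl
    rw [h3, h2 g hg hε, map_one]

end Stable

/-- **Lemma (D), final form over an algebraically closed field**: a nonzero
finite-dimensional stable subspace `W0` on which every `g` satisfies a quadratic relation
`g² - a g + ε(g) = 0` yields a two-dimensional representation on `Fin 2 → κ` with the
prescribed characteristic polynomials, trivial on the `g` that act trivially on `W0` and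
have `ε g = 1`. -/
theorem exists_rep_two_of_stable {κ : Type*} [Field κ] [IsAlgClosed κ] {G : Type*} [Group G]
    {E : Type*} [AddCommGroup E] [Module κ E] (ρ : G →* Module.End κ E)
    (W0 : Submodule κ E) [Module.Finite κ W0] (hW0 : W0 ≠ ⊥)
    (hstab : ∀ g, ∀ w ∈ W0, ρ g w ∈ W0) (ε : G →* κˣ)
    (hquad : ∀ g, ∃ a : κ, ∀ w ∈ W0, ρ g (ρ g w) - a • ρ g w + ((ε g : κˣ) : κ) • w = 0) :
    ∃ rV : G →* Module.End κ (Fin 2 → κ),
      (∀ g (a : κ), (∀ w ∈ W0, ρ g (ρ g w) - a • ρ g w + ((ε g : κˣ) : κ) • w = 0) →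
          LinearMap.charpoly (rV g) = X ^ 2 - C a * X + C ((ε g : κˣ) : κ)) ∧
      (∀ g, (∀ w ∈ W0, ρ g w = w) → ε g = 1 → rV g = 1) :=
  exists_rep_two_of_stable_end (Or.inr inferInstance) ρ W0 hW0 hstab ε hquad

/-- The same over a finite field. -/
theorem exists_rep_two_of_stable_finite {κ : Type*} [Field κ] [Finite κ] {G : Type*} [Group G]
    {E : Type*} [AddCommGroup E] [Module κ E] (ρ : G →* Module.End κ E)
    (W0 : Submodule κ E) [Module.Finite κ W0] (hW0 : W0 ≠ ⊥)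
    (hstab : ∀ g, ∀ w ∈ W0, ρ g w ∈ W0) (ε : G →* κˣ)
    (hquad : ∀ g, ∃ a : κ, ∀ w ∈ W0, ρ g (ρ g w) - a • ρ g w + ((ε g : κˣ) : κ) • w = 0) :
    ∃ rV : G →* Module.End κ (Fin 2 → κ),
      (∀ g (a : κ), (∀ w ∈ W0, ρ g (ρ g w) - a • ρ g w + ((ε g : κˣ) : κ) • w = 0) →
          LinearMap.charpoly (rV g) = X ^ 2 - C a * X + C ((ε g : κˣ) : κ)) ∧
      (∀ g, (∀ w ∈ W0, ρ g w = w) → ε g = 1 → rV g = 1) :=
  exists_rep_two_of_stable_end (Or.inl inferInstance) ρ W0 hW0 hstab ε hquad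

/-- Lemma (D) over an algebraically closed field, irreducible form, matrix output. -/
theorem exists_rep_two_of_isAlgClosed {κ : Type*} [Field κ] [IsAlgClosed κ] {G : Type*}
    [Group G] {W : Type*} [AddCommGroup W] [Module κ W] [Module.Finite κ W] [Nontrivial W]
    (ρ : G →* Module.End κ W)
    (hirr : ∀ U : Submodule κ W, (∀ g, ∀ u ∈ U, ρ g u ∈ U) → U = ⊥ ∨ U = ⊤)
    (ε : G →* κˣ)
    (hquad : ∀ g, ∃ a : κ,
      ρ g * ρ g - a • ρ g + ((ε g : κˣ) : κ) • (1 : Module.End κ W) = 0) :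
    ∃ ρ' : G →* Matrix (Fin 2) (Fin 2) κ,
      (∀ g (a : κ), ρ g * ρ g - a • ρ g + ((ε g : κˣ) : κ) • (1 : Module.End κ W) = 0 →
          (ρ' g).charpoly = X ^ 2 - C a * X + C ((ε g : κˣ) : κ)) ∧
      (∀ g, ρ g = 1 → ε g = 1 → ρ' g = 1) :=
  repTwo_of_irr (Or.inr inferInstance) hquad hirr

end Fermat.Agent.S29.H3
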