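/-
S29 / Program A, lemma (D), the consumer form asked in the coordination rows (helper3):
no irreducibility hypothesis, the whole finite-dimensional nonzero module, relation as an
identity in `Module.End κ W`, `κ` algebraically closed (or finite).  Matrix output and
`Module.End κ (Fin 2 → κ)` output.  Mathlib + `QuadRepClosed.lean` only.
-/
import Fermat.Agent.S29.H3.QuadRepClosed

set_option autoImplicit false

namespace Fermat.Agent.S29.H3

open Polynomial

/-- Lemma (D) without irreducibility, `κ` finite or algebraically closed, matrix output. -/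
theorem exists_rep_two_noirr' {κ : Type*} [Field κ] (hκ : Finite κ ∨ IsAlgClosed κ)
    {G : Type*} [Group G]
    {W : Type*} [AddCommGroup W] [Module κ W] [Module.Finite κ W] [Nontrivial W]
    (ρ : G →* Module.End κ W) (ε : G →* κˣ)
    (hquad : ∀ g, ∃ a : κ,
      ρ g * ρ g - a • ρ g + ((ε g : κˣ) : κ) • (1 : Module.End κ W) = 0) :
    ∃ ρ' : G →* Matrix (Fin 2) (Fin 2) κ,
      (∀ g (a : κ), ρ g * ρ g - a • ρ g + ((ε g : κˣ) : κ) • (1 : Module.End κ W) = 0 →
          (ρ' g).charpoly = X ^ 2 - C a * X + C ((ε g : κˣ) : κ)) ∧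
      (∀ g, ρ g = 1 → ε g = 1 → ρ' g = 1) := by
  have hpt : ∀ g (a : κ),
      ρ g * ρ g - a • ρ g + ((ε g : κˣ) : κ) • (1 : Module.End κ W) = 0 →
      ∀ w ∈ (⊤ : Submodule κ W), ρ g (ρ g w) - a • ρ g w + ((ε g : κˣ) : κ) • w = 0 := by
    intro g a h w _
    have h1 := congrArg (fun f : Module.End κ W => f w) h
    simpa using h1
  have hpt' : ∀ g (a : κ),
      (∀ w ∈ (⊤ : Submodule κ W), ρ g (ρ g w) - a • ρ g w + ((ε g : κˣ) : κ) • w = 0) →
      ρ g * ρ g - a • ρ g + ((ε g : κˣ) : κ) • (1 : Module.End κ W) = 0 := by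
    intro g a h
    ext w
    simpa using h w Submodule.mem_top
  have : Module.Finite κ (⊤ : Submodule κ W) := inferInstance
  obtain ⟨ρ', h1, h2⟩ := exists_rep_two_of_stable' hκ ρ (⊤ : Submodule κ W) top_ne_bot
    (fun _ _ _ => Submodule.mem_top) ε (fun g => by
      obtain ⟨a, ha⟩ := hquad g
      exact ⟨a, hpt g a ha⟩)
  refine ⟨ρ', fun g a ha => h1 g a (hpt g a ha), fun g hg hε => h2 g (fun w _ => ?_) hε⟩
  rw [hg, Module.End.one_apply]

/-- Lemma (D) without irreducibility over an algebraically closed field, matrix output. -/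
theorem exists_rep_two_noirr {κ : Type*} [Field κ] [IsAlgClosed κ] {G : Type*} [Group G]
    {W : Type*} [AddCommGroup W] [Module κ W] [Module.Finite κ W] [Nontrivial W]
    (ρ : G →* Module.End κ W) (ε : G →* κˣ)
    (hquad : ∀ g, ∃ a : κ,
      ρ g * ρ g - a • ρ g + ((ε g : κˣ) : κ) • (1 : Module.End κ W) = 0) :
    ∃ ρ' : G →* Matrix (Fin 2) (Fin 2) κ,
      (∀ g (a : κ), ρ g * ρ g - a • ρ g + ((ε g : κˣ) : κ) • (1 : Module.End κ W) = 0 →
          (ρ' g).charpoly = X ^ 2 - C a * X + C ((ε g : κˣ) : κ)) ∧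
      (∀ g, ρ g = 1 → ε g = 1 → ρ' g = 1) :=
  exists_rep_two_noirr' (Or.inr inferInstance) ρ ε hquad

/-- Lemma (D) without irreducibility over an algebraically closed field, output in
`Module.End κ (Fin 2 → κ)` with `LinearMap.charpoly`. -/
theorem exists_rep_two_noirr_end {κ : Type*} [Field κ] [IsAlgClosed κ] {G : Type*} [Group G]
    {W : Type*} [AddCommGroup W] [Module κ W] [Module.Finite κ W] [Nontrivial W]
    (ρ : G →* Module.End κ W) (ε : G →* κˣ)
    (hquad : ∀ g, ∃ a : κ,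
      ρ g * ρ g - a • ρ g + ((ε g : κˣ) : κ) • (1 : Module.End κ W) = 0) :
    ∃ rV : G →* Module.End κ (Fin 2 → κ),
      (∀ g (a : κ), ρ g * ρ g - a • ρ g + ((ε g : κˣ) : κ) • (1 : Module.End κ W) = 0 →
          LinearMap.charpoly (rV g) = X ^ 2 - C a * X + C ((ε g : κˣ) : κ)) ∧
      (∀ g, ρ g = 1 → ε g = 1 → rV g = 1) := by
  obtain ⟨ρ', h1, h2⟩ := exists_rep_two_noirr ρ ε hquad
  let e : Matrix (Fin 2) (Fin 2) κ ≃ₐ[κ] Module.End κ (Fin 2 → κ) := Matrix.toLinAlgEquiv'
  refine ⟨(e : Matrix (Fin 2) (Fin 2) κ →* Module.End κ (Fin 2 → κ)).comp ρ',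
    fun g a ha => ?_, fun g hg hε => ?_⟩
  · have h3 : ((e : Matrix (Fin 2) (Fin 2) κ →* Module.End κ (Fin 2 → κ)).comp ρ') g
        = Matrix.toLin' (ρ' g) := rfl
    rw [h3, Matrix.charpoly_toLin', h1 g a ha]
  · have h3 : ((e : Matrix (Fin 2) (Fin 2) κ →* Module.End κ (Fin 2 → κ)).comp ρ') g
        = e (ρ' g) := rfl
    rw [h3, h2 g hg hε, map_one]

end Fermat.Agent.S29.H3
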